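import Mathlib
import Fermat.Agent.S05.XOnly

set_option autoImplicit false
set_option linter.unusedSectionVars false

namespace Fermat.Agent.S51

open WeierstrassCurve WeierstrassCurve.Affine Fermat.Agent.S05

variable {F : Type*} [Field F] [DecidableEq F] {W : Affine F}

/-- `4x³ + b₂x² + 2b₄x + b₆`. -/
def fF (W : Affine F) (x : F) : F := 4 * x ^ 3 + W.b₂ * x ^ 2 + 2 * W.b₄ * x + W.b₆
/-- numerator of the duplication formula. -/
def fN (W : Affine F) (x : F) : F := x ^ 4 - W.b₄ * x ^ 2 - 2 * W.b₆ * x - W.b₈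
/-- the 3-division polynomial. -/
def f3 (W : Affine F) (x : F) : F :=
  3 * x ^ 4 + W.b₂ * x ^ 3 + 3 * W.b₄ * x ^ 2 + 3 * W.b₆ * x + W.b₈
/-- the 4-division polynomial divided by `ψ₂`. -/
def f4 (W : Affine F) (x : F) : F :=
  2 * x ^ 6 + W.b₂ * x ^ 5 + 5 * W.b₄ * x ^ 4 + 10 * W.b₆ * x ^ 3 + 10 * W.b₈ * x ^ 2 +
    (W.b₂ * W.b₈ - W.b₄ * W.b₆) * x + (W.b₄ * W.b₈ - W.b₆ ^ 2)
/-- the 5-division polynomial. -/
def f5 (W : Affine F) (x : F) : F := f4 W x * fF W x ^ 2 - f3 W x ^ 3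

lemma ppsi_sq' (P : W.Point) (hP : P ≠ 0) : ppsi P ^ 2 = fF W (px P) := ppsi_sq P hP

lemma fN_eq (x : F) : fN W x = x * fF W x - f3 W x := by
  simp only [fN, fF, f3]; ring

lemma id4 (x : F) : 4 * fN W x ^ 3 + W.b₂ * fN W x ^ 2 * fF W x + 2 * W.b₄ * fN W x * fF W x ^ 2
    + W.b₆ * fF W x ^ 3 = f4 W x ^ 2 := by
  have h := W.b_relation
  simp only [fN, fF, f4]
  generalize W.b₂ = b2 at *
  generalize W.b₄ = b4 at *
  generalize W.b₆ = b6 at *
  generalize W.b₈ = b8 at *
  linear_combination (-b2^2*x^6 - 6*b2*b4*x^5 - 7*b2*b6*x^4 - 4*b2*b8*x^3 - 8*b2*x^7 - 8*b4^2*x^4 - 16*b4*b6*x^3 - 8*b4*b8*x^2 - 28*b4*x^6 - 7*b6^2*x^2 - 6*b6*b8*x - 38*b6*x^5 - b8^2 - 22*b8*x^4 - 13*x^8) * h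

lemma id5 (x : F) : f3 W x ^ 2 * (fN W x + x * fF W x) - fF W x * (2 * x * fN W x * (x * fF W x + fN W x)
    + W.b₂ * x * fN W x * fF W x + W.b₄ * (x * fF W x + fN W x) * fF W x + W.b₆ * fF W x ^ 2)
    = f5 W x := by
  have h := W.b_relation
  simp only [fN, fF, f4, f5, f3]
  generalize W.b₂ = b2 at *
  generalize W.b₄ = b4 at *
  generalize W.b₆ = b6 at *
  generalize W.b₈ = b8 at *
  linear_combination (-b2^2*x^6 - 4*b2*b4*x^5 - 2*b2*b6*x^4 - 8*b2*x^7 - 4*b4^2*x^4 - 4*b4*b6*x^3 - 16*b4*x^6 - b6^2*x^2 - 8*b6*x^5 - 16*x^8) * h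

/-- At a 2-torsion point the 3-division polynomial does not vanish. -/
lemma f3_ne_zero_of_ppsi_eq_zero {P : W.Point} (hP : P ≠ 0) (h : ppsi P = 0) :
    f3 W (px P) ≠ 0 := by
  rcases P with _ | ⟨x, y, hxy⟩
  · exact absurd rfl hP
  rw [ppsi_some] at h
  rw [px_some]
  have h2 := (W.nonsingular_iff' x y).mp hxy
  obtain ⟨e1, h3⟩ := h2
  rw [W.equation_iff] at e1
  have hg : W.a₁ * y - (3 * x ^ 2 + 2 * W.a₂ * x + W.a₄) ≠ 0 := by
    rcases h3 with h3 | h3
    · exact h3
    · exact absurd h h3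
  have key : f3 W x = -(W.a₁ * y - (3 * x ^ 2 + 2 * W.a₂ * x + W.a₄)) ^ 2 := by
    simp only [f3, WeierstrassCurve.b₂, WeierstrassCurve.b₄, WeierstrassCurve.b₆,
      WeierstrassCurve.b₈]
    linear_combination (-(W.a₁ ^ 2 + 4 * W.a₂ + 12 * x)) * e1 +
      (W.a₁ * (W.a₁ * y - (3 * x ^ 2 + 2 * W.a₂ * x + W.a₄)) +
        (3 * x + W.a₂) * (2 * y + W.a₁ * x + W.a₃)) * h
  rw [key]
  exact neg_ne_zero.mpr (pow_ne_zero 2 hg)

lemma ppsi_ne_zero_of_two_nsmul_ne {P : W.Point} (hP : P ≠ 0) (h : 2 • P ≠ 0) : ppsi P ≠ 0 :=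
  fun h0 => h ((two_nsmul_eq_zero_iff hP).mpr h0)

lemma fF_ne_zero_of_ppsi_ne {P : W.Point} (hP : P ≠ 0) (h : ppsi P ≠ 0) : fF W (px P) ≠ 0 := by
  rw [← ppsi_sq' P hP]; exact pow_ne_zero 2 h

lemma fF_mul_px_two {P : W.Point} (hP : P ≠ 0) (h : ppsi P ≠ 0) :
    fF W (px P) * px (2 • P) = fN W (px P) := by
  rw [← ppsi_sq' P hP]; exact px_dup hP h

theorem three_nsmul_eq_zero_iff {P : W.Point} (hP : P ≠ 0) : 3 • P = 0 ↔ f3 W (px P) = 0 := by
  constructor
  · intro h3
    have h2 : 2 • P = -P := by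
      rw [eq_neg_iff_add_eq_zero, ← h3]; simp only [succ_nsmul, zero_nsmul, zero_add]
    have h2ne : 2 • P ≠ 0 := by rw [h2]; exact neg_ne_zero.mpr hP
    have hψ := ppsi_ne_zero_of_two_nsmul_ne hP h2ne
    have hd := fF_mul_px_two hP hψ
    rw [h2, px_neg, fN_eq] at hd
    linear_combination hd
  · intro h0
    have hψ : ppsi P ≠ 0 := fun h => f3_ne_zero_of_ppsi_eq_zero hP h h0
    have hF := fF_ne_zero_of_ppsi_ne hP hψ
    have hd := fF_mul_px_two hP hψ
    rw [fN_eq, h0, sub_zero] at hd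
    have hx : px (2 • P) = px P := by
      apply mul_left_cancel₀ hF; rw [hd]; ring
    have h2ne : 2 • P ≠ 0 := fun h => hψ ((two_nsmul_eq_zero_iff hP).mp h)
    rcases eq_or_eq_neg_of_px_eq h2ne hP hx with h | h
    · exfalso; apply hP
      have : P + P = P := by rw [← two_nsmul]; exact h
      simpa using this
    · have : 3 • P = 2 • P + P := by simp only [succ_nsmul, zero_nsmul, zero_add]
      rw [this, h]; simp

lemma px_two_sub {P : W.Point} (hP : P ≠ 0) (h : ppsi P ≠ 0) :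
    fF W (px P) * (px (2 • P) - px P) = - f3 W (px P) := by
  have hd := fF_mul_px_two hP h
  rw [fN_eq] at hd
  linear_combination hd

/-- the key relation between `x(3P)`, `x(2P)` and `ψ₅`. -/
lemma f5_eq {P : W.Point} (hP : P ≠ 0) (h2 : 2 • P ≠ 0) (h3 : 3 • P ≠ 0) :
    f3 W (px P) ^ 2 * fF W (px P) * (px (2 • P) - px (3 • P)) = f5 W (px P) := by
  have hψ := ppsi_ne_zero_of_two_nsmul_ne hP h2
  have hF := fF_ne_zero_of_ppsi_ne hP hψ
  have hd := fF_mul_px_two hP hψ
  have h3' : f3 W (px P) ≠ 0 := fun h => h3 ((three_nsmul_eq_zero_iff hP).mpr h)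
  have hsub := px_two_sub hP hψ
  have hne : px (2 • P) ≠ px P := by
    intro h
    rw [h, sub_self, mul_zero] at hsub
    exact h3' (neg_eq_zero.mp hsub.symm)
  have hs := px_sum h2 hP hne
  have e3 : 2 • P + P = 3 • P := by simp only [succ_nsmul, zero_nsmul, zero_add]
  have e1 : 2 • P - P = P := by rw [two_nsmul]; simp
  rw [e3, e1] at hs
  rw [← id5]
  set x := px P
  set x2 := px (2 • P)
  set x3 := px (3 • P)
  set Fx := fF W x
  set N := fN W x
  set T := f3 W x
  -- hd : Fx * x2 = N, hsub : Fx * (x2 - x) = -T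
  have hT : T = -(Fx * (x2 - x)) := by rw [hsub]; ring
  rw [← hd, hT]
  linear_combination (-Fx ^ 3) * hs

theorem five_nsmul_eq_zero_iff {P : W.Point} (hP : P ≠ 0) : 5 • P = 0 ↔ f5 W (px P) = 0 := by
  constructor
  · intro h5
    have h2 : 2 • P ≠ 0 := by
      intro h2; apply hP
      have : 5 • P = 2 • P + 2 • P + P := by simp only [succ_nsmul, zero_nsmul, zero_add, add_assoc]
      rw [h2, h5] at this; simpa using this.symm
    have h3 : 3 • P ≠ 0 := by
      intro h3; apply h2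
      have : 5 • P = 3 • P + 2 • P := by simp only [succ_nsmul, zero_nsmul, zero_add, add_assoc]
      rw [h3, h5] at this; simpa using this.symm
    have h32 : (3 • P : W.Point) = -(2 • P : W.Point) := by
      rw [eq_neg_iff_add_eq_zero, ← h5]; simp only [succ_nsmul, zero_nsmul, zero_add, add_assoc]
    rw [← f5_eq hP h2 h3, h32, px_neg, sub_self, mul_zero]
  · intro h0
    have hψ : ppsi P ≠ 0 := by
      intro h
      have hF : fF W (px P) = 0 := by rw [← ppsi_sq' P hP, h]; ring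
      have := f3_ne_zero_of_ppsi_eq_zero hP h
      apply this
      simp only [f5, hF] at h0
      have h1 : f3 W (px P) ^ 3 = 0 := by linear_combination -h0
      exact pow_eq_zero_iff (by norm_num) |>.mp h1
    have hF := fF_ne_zero_of_ppsi_ne hP hψ
    have h2 : 2 • P ≠ 0 := fun h => hψ ((two_nsmul_eq_zero_iff hP).mp h)
    have h3 : 3 • P ≠ 0 := by
      intro h3
      have h30 := (three_nsmul_eq_zero_iff hP).mp h3
      have h4 : f4 W (px P) = 0 := by
        simp only [f5, h30] at h0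
        have : f4 W (px P) * fF W (px P) ^ 2 = 0 := by linear_combination h0
        rcases mul_eq_zero.mp this with h | h
        · exact h
        · exact absurd (pow_eq_zero_iff (by norm_num) |>.mp h) hF
      have hsub := px_two_sub hP hψ
      rw [h30, neg_zero] at hsub
      have hx : px (2 • P) = px P := by
        rcases mul_eq_zero.mp hsub with h | h
        · exact absurd h hF
        · exact sub_eq_zero.mp h
      have hd := fF_mul_px_two hP hψ
      rw [hx] at hd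
      have hid := id4 (W := W) (px P)
      rw [h4, ← hd] at hid
      have : fF W (px P) ^ 3 * fF W (px P) = 0 := by
        conv_lhs => rw [show fF W (px P) ^ 3 * fF W (px P) = fF W (px P) ^ 3 * (4 * px P ^ 3 + W.b₂ * px P ^ 2 + 2 * W.b₄ * px P + W.b₆) from rfl]
        linear_combination hid
      exact hF (pow_eq_zero_iff (n := 4) (by norm_num) |>.mp (by linear_combination this))
    have h3' : f3 W (px P) ≠ 0 := fun h => h3 ((three_nsmul_eq_zero_iff hP).mpr h)
    have key := f5_eq hP h2 h3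
    rw [h0] at key
    have hx : px (2 • P) = px (3 • P) := by
      rcases mul_eq_zero.mp key with h | h
      · exact absurd h (mul_ne_zero (pow_ne_zero 2 h3') hF)
      · exact sub_eq_zero.mp h
    rcases eq_or_eq_neg_of_px_eq h2 h3 hx with h | h
    · exfalso; apply hP
      have : 3 • P = 2 • P + P := by simp only [succ_nsmul, zero_nsmul, zero_add]
      rw [this] at h
      simpa using h
    · have : 5 • P = 2 • P + 3 • P := by simp only [succ_nsmul, zero_nsmul, zero_add, add_assoc]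
      rw [this, h]; simp

end Fermat.Agent.S51
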