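import Mathlib
import Fermat.Agent.S51.Torsion

set_option autoImplicit false
set_option linter.unusedSectionVars false

namespace Fermat.Agent.S51

open WeierstrassCurve WeierstrassCurve.Affine Fermat.Agent.S05 Polynomial

variable {F : Type*} [Field F] [DecidableEq F] {W : Affine F}

lemma exists_point [IsAlgClosed F] (h2 : (2 : F) ≠ 0) (hΔ : W.Δ ≠ 0) (x : F) :
    ∃ P : W.Point, P ≠ 0 ∧ px P = x := by
  obtain ⟨s, hs⟩ := IsAlgClosed.exists_pow_nat_eq (fF W x) (n := 2) (by norm_num)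
  have heq : W.Equation x ((s - W.a₁ * x - W.a₃) / 2) := by
    rw [W.equation_iff]
    simp only [fF, WeierstrassCurve.b₂, WeierstrassCurve.b₄, WeierstrassCurve.b₆] at hs
    field_simp
    linear_combination hs
  exact ⟨Point.some x _ ((W.equation_iff_nonsingular_of_Δ_ne_zero hΔ).mp heq),
    Point.some_ne_zero _, rfl⟩

lemma eval_Ψ₃ (x : F) : (W.Ψ₃).eval x = f3 W x := by
  simp only [WeierstrassCurve.Ψ₃, f3]
  simp

lemma eval_preΨ'_five (x : F) : (W.preΨ' 5).eval x = f5 W x := by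
  have h := W.preΨ'_odd 0
  simp only [zero_add] at h
  norm_num at h
  rw [h]
  simp only [f5, f4, fF, f3, WeierstrassCurve.preΨ₄, WeierstrassCurve.Ψ₃, WeierstrassCurve.Ψ₂Sq]
  simp

lemma exists_three_torsion [IsAlgClosed F] (h2 : (2 : F) ≠ 0) (h3 : (3 : F) ≠ 0) (hΔ : W.Δ ≠ 0) :
    ∃ P : W.Point, P ≠ 0 ∧ 3 • P = 0 := by
  have hdeg : (W.Ψ₃).degree ≠ 0 := by
    rw [degree_eq_natDegree (W.Ψ₃_ne_zero h3), W.natDegree_Ψ₃ h3]; norm_num
  obtain ⟨x, hx⟩ := IsAlgClosed.exists_root _ hdeg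
  obtain ⟨P, hP, rfl⟩ := exists_point h2 hΔ x
  refine ⟨P, hP, (three_nsmul_eq_zero_iff hP).mpr ?_⟩
  rw [← eval_Ψ₃]; exact hx

lemma exists_five_torsion [IsAlgClosed F] (h2 : (2 : F) ≠ 0) (h5 : (5 : F) ≠ 0) (hΔ : W.Δ ≠ 0) :
    ∃ P : W.Point, P ≠ 0 ∧ 5 • P = 0 := by
  have h5' : ((5 : ℕ) : F) ≠ 0 := by exact_mod_cast h5
  have hdeg : (W.preΨ' 5).degree ≠ 0 := by
    rw [degree_eq_natDegree (W.preΨ'_ne_zero h5'), W.natDegree_preΨ' h5']; norm_num
  obtain ⟨x, hx⟩ := IsAlgClosed.exists_root _ hdeg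
  obtain ⟨P, hP, rfl⟩ := exists_point h2 hΔ x
  refine ⟨P, hP, (five_nsmul_eq_zero_iff hP).mpr ?_⟩
  rw [← eval_preΨ'_five]; exact hx

/-- A set of points whose nonzero members have `x`-coordinates among the roots of `p`. -/
lemma finite_and_ncard_le (p : F[X]) (hp : p ≠ 0) (T : Set W.Point)
    (hT : ∀ P ∈ T, P ≠ 0 → p.IsRoot (px P)) : T.Finite ∧ T.ncard ≤ 2 * p.natDegree + 1 := by
  classical
  set A : F → Set W.Point := fun x => {P | P ≠ 0 ∧ px P = x} with hA
  have hAfin : ∀ x, (A x).Finite ∧ (A x).ncard ≤ 2 := by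
    intro x
    by_cases hne : (A x).Nonempty
    · obtain ⟨P₀, hP₀, hx₀⟩ := hne
      have hsub : A x ⊆ {P₀, -P₀} := by
        rintro P ⟨hP, hx⟩
        rcases eq_or_eq_neg_of_px_eq hP hP₀ (hx.trans hx₀.symm) with h | h
        · left; exact h
        · right; exact h
      have hfin : ({P₀, -P₀} : Set W.Point).Finite := by simp
      exact ⟨hfin.subset hsub, (Set.ncard_le_ncard hsub hfin).trans
        ((Set.ncard_insert_le _ _).trans (by rw [Set.ncard_singleton]))⟩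
    · rw [Set.not_nonempty_iff_eq_empty] at hne
      rw [hne]; simp
  have hsub : T ⊆ {0} ∪ ⋃ x ∈ p.roots.toFinset, A x := by
    intro P hP
    by_cases h0 : P = 0
    · left; exact h0
    · right
      simp only [Set.mem_iUnion]
      refine ⟨px P, ?_, h0, rfl⟩
      rw [Multiset.mem_toFinset, mem_roots hp]
      exact hT P hP h0
  have hUfin : (⋃ x ∈ p.roots.toFinset, A x).Finite :=
    Set.Finite.biUnion (Finset.finite_toSet _) fun x _ => (hAfin x).1
  have hfin : ({0} ∪ ⋃ x ∈ p.roots.toFinset, A x).Finite := (Set.finite_singleton _).union hUfin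
  refine ⟨hfin.subset hsub, (Set.ncard_le_ncard hsub hfin).trans ?_⟩
  refine (Set.ncard_union_le _ _).trans ?_
  rw [Set.ncard_singleton]
  have h1 : (⋃ x ∈ p.roots.toFinset, A x).ncard ≤ ∑ x ∈ p.roots.toFinset, 2 :=
    (Finset.set_ncard_biUnion_le _ _).trans (Finset.sum_le_sum fun x _ => (hAfin x).2)
  have h2 : p.roots.toFinset.card ≤ p.natDegree :=
    (Multiset.toFinset_card_le _).trans (card_roots' p)
  simp only [Finset.sum_const, smul_eq_mul] at h1
  omega

end Fermat.Agent.S51
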