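import Mathlib
import Fermat.Prelude.Def_FLTPrelim_GaloisRep
import Fermat.Agent.S51.Count

set_option autoImplicit false
set_option linter.unusedSectionVars false
set_option linter.style.haveILetI false

namespace Fermat.Agent.S51

open WeierstrassCurve WeierstrassCurve.Affine WeierstrassCurve.Affine.Point Fermat.Agent.S05 Polynomial

/-- a proper nonzero submodule of a small `ZMod p`-module is a line. -/
lemma exists_generator {p : ℕ} [Fact p.Prime] {V : Type*} [AddCommGroup V] [Module (ZMod p) V]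
    [Finite V] (hcard : Nat.card V < p ^ 3) (N : Submodule (ZMod p) V) (h0 : N ≠ ⊥) (h1 : N ≠ ⊤) :
    ∃ v ∈ N, v ≠ 0 ∧ ∀ w ∈ N, ∃ c : ZMod p, w = c • v := by
  haveI : Module.Finite (ZMod p) V := Module.Finite.of_finite
  have hc := Module.natCard_eq_pow_finrank (K := ZMod p) (V := V)
  rw [Nat.card_zmod] at hc
  rw [hc] at hcard
  have hlt : Module.finrank (ZMod p) V < 3 :=
    (Nat.pow_lt_pow_iff_right (Fact.out : p.Prime).one_lt).mp hcard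
  have h2 := Submodule.finrank_lt h1
  have h3 : 1 ≤ Module.finrank (ZMod p) N := Submodule.one_le_finrank_iff.mpr h0
  have h4 : Module.finrank (ZMod p) N = 1 := by omega
  obtain ⟨v, hv, hgen⟩ := finrank_eq_one_iff'.mp h4
  refine ⟨v, v.2, fun h => hv (Subtype.ext h), fun w hw => ?_⟩
  obtain ⟨c, hc⟩ := hgen ⟨w, hw⟩
  exact ⟨c, by rw [← Submodule.coe_smul, hc]⟩

local notation "Qb" => AlgebraicClosure ℚ

variable (E : Affine ℚ)

lemma px_smul (σ : Qb ≃ₐ[ℚ] Qb) (P : (E⁄Qb).Point) : px (σ • P) = σ (px P) := by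
  rcases P with _ | ⟨x, y, h⟩
  · change px (0 : (E⁄Qb).Point) = σ 0
    simp
  · rfl

lemma smul_ne_zero' (σ : Qb ≃ₐ[ℚ] Qb) {P : (E⁄Qb).Point} (hP : P ≠ 0) : σ • P ≠ 0 := by
  rcases P with _ | ⟨x, y, h⟩
  · exact absurd rfl hP
  · exact Point.some_ne_zero _

lemma mem_tor_iff (n : ℕ) (P : (E⁄Qb).Point) :
    P ∈ Submodule.torsionBy ℤ (E⁄Qb).Point n ↔ n • P = 0 := by
  rw [Submodule.mem_torsionBy_iff, natCast_zsmul]

lemma baseChange_Δ_ne_zero (hΔ : E.Δ ≠ 0) : (E⁄Qb).Δ ≠ 0 := by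
  change (E.map (algebraMap ℚ Qb)).Δ ≠ 0
  rw [WeierstrassCurve.map_Δ]
  exact (_root_.map_ne_zero _).mpr hΔ

lemma zmod_smul_coe {n : ℕ} [NeZero n] (c : ZMod n)
    (v : Submodule.torsionBy ℤ (E⁄Qb).Point n) :
    ((c • v : Submodule.torsionBy ℤ (E⁄Qb).Point n) : (E⁄Qb).Point) = c.val • (v : (E⁄Qb).Point) := by
  conv_lhs => rw [← ZMod.natCast_zmod_val c, Nat.cast_smul_eq_nsmul]
  rfl

lemma tor_three_finite :
    ((Submodule.torsionBy ℤ (E⁄Qb).Point (3 : ℕ) : Submodule ℤ (E⁄Qb).Point) : Set (E⁄Qb).Point).Finite ∧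
    ((Submodule.torsionBy ℤ (E⁄Qb).Point (3 : ℕ) : Submodule ℤ (E⁄Qb).Point) : Set (E⁄Qb).Point).ncard
      ≤ 9 := by
  have h3 : (3 : Qb) ≠ 0 := by norm_num
  have h := finite_and_ncard_le (W := (E⁄Qb)) ((E⁄Qb).Ψ₃) ((E⁄Qb).Ψ₃_ne_zero h3)
    ((Submodule.torsionBy ℤ (E⁄Qb).Point (3 : ℕ) : Submodule ℤ (E⁄Qb).Point) : Set (E⁄Qb).Point)
    (fun P hP hP0 => by
      rw [IsRoot, eval_Ψ₃]
      exact (three_nsmul_eq_zero_iff hP0).mp ((mem_tor_iff E 3 P).mp hP))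
  rw [(E⁄Qb).natDegree_Ψ₃ h3] at h
  exact h

lemma tor_five_finite :
    ((Submodule.torsionBy ℤ (E⁄Qb).Point (5 : ℕ) : Submodule ℤ (E⁄Qb).Point) : Set (E⁄Qb).Point).Finite ∧
    ((Submodule.torsionBy ℤ (E⁄Qb).Point (5 : ℕ) : Submodule ℤ (E⁄Qb).Point) : Set (E⁄Qb).Point).ncard
      ≤ 25 := by
  have h5 : ((5 : ℕ) : Qb) ≠ 0 := by norm_num
  have h := finite_and_ncard_le (W := (E⁄Qb)) ((E⁄Qb).preΨ' 5) ((E⁄Qb).preΨ'_ne_zero h5)
    ((Submodule.torsionBy ℤ (E⁄Qb).Point (5 : ℕ) : Submodule ℤ (E⁄Qb).Point) : Set (E⁄Qb).Point)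
    (fun P hP hP0 => by
      rw [IsRoot, eval_preΨ'_five]
      exact (five_nsmul_eq_zero_iff hP0).mp ((mem_tor_iff E 5 P).mp hP))
  rw [(E⁄Qb).natDegree_preΨ' h5] at h
  norm_num at h
  exact h

/-- common part: a non-irreducible torsion module of small cardinality contains a Galois stable
line. -/
lemma exists_stable_line {p : ℕ} [Fact p.Prime]
    (hfin : ((Submodule.torsionBy ℤ (E⁄Qb).Point (p : ℕ) : Submodule ℤ (E⁄Qb).Point) :
      Set (E⁄Qb).Point).Finite)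
    (hcard : ((Submodule.torsionBy ℤ (E⁄Qb).Point (p : ℕ) : Submodule ℤ (E⁄Qb).Point) :
      Set (E⁄Qb).Point).ncard < p ^ 3)
    (hex : ∃ P : (E⁄Qb).Point, P ≠ 0 ∧ p • P = 0)
    (h : ¬ GaloisRepIsIrreducible (K := Qb) ℚ E p) :
    ∃ P : (E⁄Qb).Point, P ≠ 0 ∧ p • P = 0 ∧ ∀ σ : Qb ≃ₐ[ℚ] Qb, ∃ k : ℕ, σ • P = k • P := by
  haveI : NeZero p := ⟨(Fact.out : p.Prime).ne_zero⟩
  haveI : Finite (Submodule.torsionBy ℤ (E⁄Qb).Point (p : ℕ)) := hfin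
  have hnt : Nontrivial (Submodule.torsionBy ℤ (E⁄Qb).Point (p : ℕ)) := by
    obtain ⟨P, hP, hpP⟩ := hex
    exact ⟨⟨⟨P, (mem_tor_iff E p P).mpr hpP⟩, 0, fun h => hP (congrArg Subtype.val h)⟩⟩
  unfold GaloisRepIsIrreducible at h
  push Not at h
  obtain ⟨N, hN, h0, h1⟩ := h hnt
  have hc : Nat.card (Submodule.torsionBy ℤ (E⁄Qb).Point (p : ℕ)) < p ^ 3 := by
    rw [← Nat.card_coe_set_eq] at hcard
    exact hcard
  obtain ⟨v, hv, hv0, hgen⟩ := exists_generator hc N h0 h1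
  refine ⟨v, fun h => hv0 (Subtype.ext h), (mem_tor_iff E p v).mp v.2, fun σ => ?_⟩
  obtain ⟨c, hc⟩ := hgen (σ • v) (hN σ v hv)
  refine ⟨c.val, ?_⟩
  rw [← zmod_smul_coe, ← hc]
  rfl

instance instIsGaloisQb : IsGalois ℚ Qb :=
  haveI : IsAlgClosure ℚ Qb := ⟨inferInstance, AlgebraicClosure.isAlgebraic ℚ⟩
  IsAlgClosure.isGalois ℚ Qb

lemma smul_nsmul' (σ : Qb ≃ₐ[ℚ] Qb) (k : ℕ) (P : (E⁄Qb).Point) : σ • (k • P) = k • (σ • P) :=
  (Point.map σ.toAlgHom).map_nsmul k P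

theorem three_data (hΔ : E.Δ ≠ 0) (h : ¬ GaloisRepIsIrreducible (K := Qb) ℚ E 3) :
    ∃ (P : (E⁄Qb).Point) (x₀ : ℚ), P ≠ 0 ∧ 3 • P = 0 ∧ px P = algebraMap ℚ Qb x₀ := by
  have hΔ' := baseChange_Δ_ne_zero E hΔ
  obtain ⟨P, hP, h3, hσ⟩ := exists_stable_line E (p := 3) (tor_three_finite E).1
    (lt_of_le_of_lt (tor_three_finite E).2 (by norm_num))
    (exists_three_torsion (by norm_num) (by norm_num) hΔ') h
  have hfix : ∀ σ : Qb ≃ₐ[ℚ] Qb, σ (px P) = px P := by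
    intro σ
    obtain ⟨k, hk⟩ := hσ σ
    rw [← px_smul, hk, nsmul_eq_mod_nsmul k h3]
    have hne : (k % 3) • P ≠ 0 := by
      rw [← nsmul_eq_mod_nsmul k h3, ← hk]; exact smul_ne_zero' E σ hP
    have hlt : k % 3 < 3 := Nat.mod_lt _ (by norm_num)
    interval_cases hk3 : k % 3
    · simp at hne
    · simp
    · have : 2 • P = -P := by
        rw [eq_neg_iff_add_eq_zero, ← h3]; simp only [succ_nsmul, zero_nsmul, zero_add]
      rw [this, px_neg]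
  obtain ⟨x₀, hx₀⟩ := (InfiniteGalois.mem_range_algebraMap_iff_fixed (k := ℚ) (px P)).mpr hfix
  exact ⟨P, x₀, hP, h3, hx₀.symm⟩

theorem five_data (hΔ : E.Δ ≠ 0) (h : ¬ GaloisRepIsIrreducible (K := Qb) ℚ E 5) :
    ∃ (P : (E⁄Qb).Point) (e₁ e₂ : ℚ), P ≠ 0 ∧ 5 • P = 0 ∧
      px P + px (2 • P) = algebraMap ℚ Qb e₁ ∧ px P * px (2 • P) = algebraMap ℚ Qb e₂ := by
  have hΔ' := baseChange_Δ_ne_zero E hΔ
  haveI : Fact (Nat.Prime 5) := ⟨by norm_num⟩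
  obtain ⟨P, hP, h5, hσ⟩ := exists_stable_line E (p := 5) (tor_five_finite E).1
    (lt_of_le_of_lt (tor_five_finite E).2 (by norm_num))
    (exists_five_torsion (by norm_num) (by norm_num) hΔ') h
  have h4 : 4 • P = -P := by
    rw [eq_neg_iff_add_eq_zero, ← h5]; simp only [succ_nsmul, zero_nsmul, zero_add, add_assoc]
  have h3 : (3 • P : (E⁄Qb).Point) = -(2 • P : (E⁄Qb).Point) := by
    rw [eq_neg_iff_add_eq_zero, ← h5]; simp only [succ_nsmul, zero_nsmul, zero_add, add_assoc]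
  have hswap : ∀ σ : Qb ≃ₐ[ℚ] Qb, (σ (px P) = px P ∧ σ (px (2 • P)) = px (2 • P)) ∨
      (σ (px P) = px (2 • P) ∧ σ (px (2 • P)) = px P) := by
    intro σ
    obtain ⟨k, hk⟩ := hσ σ
    rw [← px_smul, ← px_smul, smul_nsmul', hk, nsmul_eq_mod_nsmul k h5]
    have hne : (k % 5) • P ≠ 0 := by
      rw [← nsmul_eq_mod_nsmul k h5, ← hk]; exact smul_ne_zero' E σ hP
    have hlt : k % 5 < 5 := Nat.mod_lt _ (by norm_num)
    interval_cases hk5 : k % 5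
    · simp at hne
    · left; simp
    · right
      refine ⟨rfl, ?_⟩
      rw [← mul_nsmul]; norm_num
      rw [h4, px_neg]
    · right
      refine ⟨by rw [h3, px_neg], ?_⟩
      rw [← mul_nsmul]; norm_num
      have : 6 • P = P := by
        have : 6 • P = 5 • P + P := by simp only [succ_nsmul, zero_nsmul, zero_add, add_assoc]
        rw [this, h5, zero_add]
      rw [this]
    · left
      refine ⟨by rw [h4, px_neg], ?_⟩
      rw [h4, neg_nsmul, px_neg]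
  have hfix1 : ∀ σ : Qb ≃ₐ[ℚ] Qb, σ (px P + px (2 • P)) = px P + px (2 • P) := by
    intro σ
    rw [map_add]
    rcases hswap σ with ⟨h1, h2⟩ | ⟨h1, h2⟩
    · rw [h1, h2]
    · rw [h1, h2, add_comm]
  have hfix2 : ∀ σ : Qb ≃ₐ[ℚ] Qb, σ (px P * px (2 • P)) = px P * px (2 • P) := by
    intro σ
    rw [map_mul]
    rcases hswap σ with ⟨h1, h2⟩ | ⟨h1, h2⟩
    · rw [h1, h2]
    · rw [h1, h2, mul_comm]
  obtain ⟨e₁, he₁⟩ := (InfiniteGalois.mem_range_algebraMap_iff_fixed (k := ℚ) _).mpr hfix1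
  obtain ⟨e₂, he₂⟩ := (InfiniteGalois.mem_range_algebraMap_iff_fixed (k := ℚ) _).mpr hfix2
  exact ⟨P, e₁, e₂, hP, h5, he₁.symm, he₂.symm⟩

end Fermat.Agent.S51
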