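import Mathlib

/-!
# Rational points on `X₀(15)`

Infinite descent showing that `(r² - 1)(r² - 81) = t²` has only the trivial rational solutions,
and the determination of the rational points of `y² = x (x + 9) (x - 16)`.
-/

namespace Fermat.Agent.S51

/-- If `x * y = e ^ 2` with `e ≠ 0` then `x = w p²`, `y = w q²`, `e = w p q` with `p, q` coprime. -/
lemma sq_param (x y e : ℤ) (he : e ≠ 0) (h : x * y = e ^ 2) :
    ∃ w p q : ℤ, IsCoprime p q ∧ x = w * p ^ 2 ∧ y = w * q ^ 2 ∧ e = w * p * q := by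
  have hx : x ≠ 0 := by
    rintro rfl
    rw [zero_mul] at h
    exact he (pow_eq_zero_iff two_ne_zero |>.mp h.symm)
  have hg : 0 < Int.gcd x e := Int.gcd_pos_of_ne_zero_left _ hx
  obtain ⟨p, q, hpq, hxp, heq⟩ := Int.exists_gcd_one hg
  set g : ℤ := (Int.gcd x e : ℤ) with hgdef
  have hg0 : g ≠ 0 := by positivity
  have hcop : IsCoprime p q := Int.isCoprime_iff_gcd_eq_one.mpr hpq
  have hp0 : p ≠ 0 := by
    rintro rfl
    rw [zero_mul] at hxp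
    exact hx hxp
  have h1 : p * y = q ^ 2 * g := by
    have : g * (p * y) = g * (q ^ 2 * g) := by
      calc g * (p * y) = x * y := by rw [hxp]; ring
        _ = e ^ 2 := h
        _ = g * (q ^ 2 * g) := by rw [heq]; ring
    exact mul_left_cancel₀ hg0 this
  have h2 : p ∣ g := by
    have : p ∣ q ^ 2 * g := ⟨y, h1.symm⟩
    exact (hcop.pow_right).dvd_of_dvd_mul_left this
  obtain ⟨w, hw⟩ := h2
  refine ⟨w, p, q, hcop, ?_, ?_, ?_⟩
  · rw [hxp, hw]; ring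
  · have : p * y = p * (w * q ^ 2) := by rw [h1, hw]; ring
    exact mul_left_cancel₀ hp0 this
  · rw [heq, hw]; ring

lemma sq_emod_three (x : ℤ) : x ^ 2 % 3 = 0 ∧ x % 3 = 0 ∨ x ^ 2 % 3 = 1 := by
  have : x % 3 = 0 ∨ x % 3 = 1 ∨ x % 3 = 2 := by omega
  rcases this with h | h | h <;> simp [pow_two, Int.mul_emod, h]

lemma three_dvd_of_sq_add_sq {p q : ℤ} (h : (3 : ℤ) ∣ p ^ 2 + q ^ 2) : (3 : ℤ) ∣ p ∧ (3 : ℤ) ∣ q := by
  rcases sq_emod_three p with hp | hp <;> rcases sq_emod_three q with hq | hq <;> omega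

lemma not_three_dvd_sq_add_sq {p q : ℤ} (hpq : IsCoprime p q) : ¬ (3 : ℤ) ∣ p ^ 2 + q ^ 2 := by
  intro h
  obtain ⟨h1, h2⟩ := three_dvd_of_sq_add_sq h
  have := hpq.isUnit_of_dvd' h1 h2
  exact absurd (Int.isUnit_iff.mp this) (by norm_num)

lemma coprime_mul_sq_add_sq {p q : ℤ} (hpq : IsCoprime p q) : IsCoprime (p * q) (p ^ 2 + q ^ 2) := by
  apply IsCoprime.mul_left
  · have : IsCoprime p (q ^ 2 + p * p) := (hpq.pow_right).add_mul_left_right p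
    convert this using 1; ring
  · have : IsCoprime q (p ^ 2 + q * q) := (hpq.symm.pow_right).add_mul_left_right q
    convert this using 1; ring

/-- the key coprimality argument -/
lemma key_K {p q r s : ℤ} (hpq : IsCoprime p q) (hrs : IsCoprime r s)
    (hp : p ≠ 0) (hq : q ≠ 0) (hr : r ≠ 0) (hs : s ≠ 0)
    (h : (p ^ 2 + q ^ 2) * (r * s) = 9 * (r ^ 2 + s ^ 2) * (p * q)) :
    r * s = 9 * (p * q) ∧ p ^ 2 + q ^ 2 = r ^ 2 + s ^ 2 := by
  have hpq0 : p * q ≠ 0 := mul_ne_zero hp hq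
  have hrs0 : r * s ≠ 0 := mul_ne_zero hr hs
  have h1 : p * q ∣ r * s := by
    have : p * q ∣ (p ^ 2 + q ^ 2) * (r * s) := ⟨9 * (r ^ 2 + s ^ 2), by rw [h]; ring⟩
    exact (coprime_mul_sq_add_sq hpq).dvd_of_dvd_mul_left this
  obtain ⟨k, hk⟩ := h1
  have h2 : (p ^ 2 + q ^ 2) * k = 9 * (r ^ 2 + s ^ 2) := by
    have : (p * q) * ((p ^ 2 + q ^ 2) * k) = (p * q) * (9 * (r ^ 2 + s ^ 2)) := by
      calc (p * q) * ((p ^ 2 + q ^ 2) * k) = (p ^ 2 + q ^ 2) * (r * s) := by rw [hk]; ring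
        _ = _ := by rw [h]; ring
    exact mul_left_cancel₀ hpq0 this
  have h3 : r * s ∣ 9 * (p * q) := by
    have : r * s ∣ (r ^ 2 + s ^ 2) * (9 * (p * q)) := ⟨p ^ 2 + q ^ 2, by linear_combination -h⟩
    exact (coprime_mul_sq_add_sq hrs).dvd_of_dvd_mul_left this
  have h4 : k ∣ 9 := by
    rw [hk] at h3
    have : (p * q) * k ∣ (p * q) * 9 := by convert h3 using 1; ring
    exact (mul_dvd_mul_iff_left hpq0).mp this
  have hpos1 : 0 < p ^ 2 + q ^ 2 := by positivity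
  have hpos2 : 0 < r ^ 2 + s ^ 2 := by positivity
  have hkpos : 0 < k := by
    by_contra hneg
    have hneg' : k ≤ 0 := not_lt.mp hneg
    nlinarith
  have hk9 : k ≤ 9 := Int.le_of_dvd (by norm_num) h4
  have hcases : k = 1 ∨ k = 3 ∨ k = 9 := by
    interval_cases k <;> omega
  rcases hcases with rfl | rfl | rfl
  · exact absurd ⟨3 * (r ^ 2 + s ^ 2), by linear_combination h2⟩ (not_three_dvd_sq_add_sq hpq)
  · exact absurd ⟨r ^ 2 + s ^ 2, by linarith⟩ (not_three_dvd_sq_add_sq hpq)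
  · exact ⟨by rw [hk]; ring, by linarith⟩

/-- nontrivial integral solutions of `(M² - e²)(M² - 81 e²) = N²` -/
def Sol (M e : ℤ) : Prop :=
  M ≠ 0 ∧ e ≠ 0 ∧ ∃ N : ℤ, N ≠ 0 ∧ (M ^ 2 - e ^ 2) * (M ^ 2 - 81 * e ^ 2) = N ^ 2

lemma key_L {p q r s : ℤ} (hp : p ≠ 0) (hq : q ≠ 0)
    (h1 : r * s = p * q) (h2 : p ^ 2 + q ^ 2 = r ^ 2 + 81 * s ^ 2) :
    ∃ γ β : ℤ, Sol γ β ∧ β ∣ p ∧ γ ∣ q := by
  have hg : 0 < Int.gcd p r := Int.gcd_pos_of_ne_zero_left _ hp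
  obtain ⟨β, γ, hβγ, hpβ, hrγ⟩ := Int.exists_gcd_one hg
  set α : ℤ := (Int.gcd p r : ℤ) with hα
  have hα0 : α ≠ 0 := by positivity
  have hcop : IsCoprime β γ := Int.isCoprime_iff_gcd_eq_one.mpr hβγ
  have hβ0 : β ≠ 0 := by
    rintro rfl
    rw [zero_mul] at hpβ
    exact hp hpβ
  have h3 : γ * s = β * q := by
    have : α * (γ * s) = α * (β * q) := by
      calc α * (γ * s) = r * s := by rw [hrγ]; ring
        _ = p * q := h1
        _ = α * (β * q) := by rw [hpβ]; ring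
    exact mul_left_cancel₀ hα0 this
  have h4 : β ∣ s := hcop.dvd_of_dvd_mul_left ⟨q, h3⟩
  obtain ⟨δ, hδ⟩ := h4
  have h5 : q = γ * δ := by
    have : β * q = β * (γ * δ) := by rw [← h3, hδ]; ring
    exact mul_left_cancel₀ hβ0 this
  have hγ0 : γ ≠ 0 := by
    rintro rfl
    rw [zero_mul] at h5
    exact hq h5
  have hδ0 : δ ≠ 0 := by
    rintro rfl
    rw [mul_zero] at h5
    exact hq h5
  have h6 : α ^ 2 * (β ^ 2 - γ ^ 2) = δ ^ 2 * (81 * β ^ 2 - γ ^ 2) := by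
    rw [hpβ, hrγ, h5, hδ] at h2
    linear_combination h2
  have h7 : δ ^ 2 ∣ (α * (β ^ 2 - γ ^ 2)) ^ 2 :=
    ⟨(81 * β ^ 2 - γ ^ 2) * (β ^ 2 - γ ^ 2), by linear_combination (β ^ 2 - γ ^ 2) * h6⟩
  obtain ⟨N, hN⟩ := (Int.pow_dvd_pow_iff two_ne_zero).mp h7
  have h8 : (γ ^ 2 - β ^ 2) * (γ ^ 2 - 81 * β ^ 2) = N ^ 2 := by
    have : δ ^ 2 * ((γ ^ 2 - β ^ 2) * (γ ^ 2 - 81 * β ^ 2)) = δ ^ 2 * N ^ 2 := by
      calc δ ^ 2 * ((γ ^ 2 - β ^ 2) * (γ ^ 2 - 81 * β ^ 2))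
          = (α * (β ^ 2 - γ ^ 2)) ^ 2 := by linear_combination -(β ^ 2 - γ ^ 2) * h6
        _ = δ ^ 2 * N ^ 2 := by rw [hN]; ring
    exact mul_left_cancel₀ (pow_ne_zero 2 hδ0) this
  refine ⟨γ, β, ⟨hγ0, hβ0, N, ?_, h8⟩, ⟨α, by rw [hpβ]⟩, ⟨δ, h5⟩⟩
  rintro rfl
  have h9 : α * (β ^ 2 - γ ^ 2) = 0 := by rw [hN]; ring
  have h10 : β ^ 2 - γ ^ 2 = 0 := (mul_eq_zero.mp h9).resolve_left hα0
  rw [h10, mul_zero] at h6
  have h11 : 81 * β ^ 2 - γ ^ 2 = 0 :=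
    (mul_eq_zero.mp h6.symm).resolve_left (pow_ne_zero 2 hδ0)
  have : β ^ 2 = 0 := by linarith
  exact hβ0 (pow_eq_zero_iff two_ne_zero |>.mp this)

/-- the halving step of the descent -/
lemma halving {M e u v : ℤ} (he : e ≠ 0) (h1 : M ^ 2 - e ^ 2 = u ^ 2)
    (h2 : M ^ 2 - 81 * e ^ 2 = v ^ 2) :
    ∃ γ β : ℤ, Sol γ β ∧ β ∣ e ∧ γ ∣ e := by
  obtain ⟨w, p, q, hpq, hx, hy, hE⟩ := sq_param (M + u) (M - u) e he (by linear_combination h1)
  obtain ⟨w', r, s, hrs, hx', hy', hE'⟩ := sq_param (M + v) (M - v) (9 * e)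
    (mul_ne_zero (by norm_num) he) (by linear_combination h2)
  have hw : w ≠ 0 := by rintro rfl; exact he (by rw [hE]; ring)
  have hp : p ≠ 0 := by rintro rfl; exact he (by rw [hE]; ring)
  have hq : q ≠ 0 := by rintro rfl; exact he (by rw [hE]; ring)
  have he9 : 9 * e ≠ 0 := mul_ne_zero (by norm_num) he
  have hw' : w' ≠ 0 := by rintro rfl; exact he9 (by rw [hE']; ring)
  have hr : r ≠ 0 := by rintro rfl; exact he9 (by rw [hE']; ring)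
  have hs : s ≠ 0 := by rintro rfl; exact he9 (by rw [hE']; ring)
  have hM1 : 2 * M = w * (p ^ 2 + q ^ 2) := by linear_combination hx + hy
  have hM2 : 2 * M = w' * (r ^ 2 + s ^ 2) := by linear_combination hx' + hy'
  have hkey : (p ^ 2 + q ^ 2) * (r * s) = 9 * (r ^ 2 + s ^ 2) * (p * q) := by
    apply mul_left_cancel₀ (mul_ne_zero hw hw')
    calc w * w' * ((p ^ 2 + q ^ 2) * (r * s))
        = (w * (p ^ 2 + q ^ 2)) * (w' * r * s) := by ring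
      _ = (w' * (r ^ 2 + s ^ 2)) * (9 * (w * p * q)) := by rw [← hM1, ← hE', hM2, ← hE]
      _ = w * w' * (9 * (r ^ 2 + s ^ 2) * (p * q)) := by ring
  obtain ⟨hA, hB⟩ := key_K hpq hrs hp hq hr hs hkey
  have h9 : (3 : ℤ) ^ 2 ∣ r * s := ⟨p * q, by rw [hA]; ring⟩
  have hpe : p ∣ e := ⟨w * q, by rw [hE]; ring⟩
  have hqe : q ∣ e := ⟨w * p, by rw [hE]; ring⟩
  by_cases h3 : (3 : ℤ) ∣ s
  · have hc : IsCoprime ((3 : ℤ) ^ 2) r := (hrs.of_isCoprime_of_dvd_right h3).symm.pow_left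
    obtain ⟨s', hs'⟩ := hc.dvd_of_dvd_mul_left h9
    obtain ⟨γ, β, hS, hβ, hγ⟩ := key_L (r := r) (s := s') hp hq
      (by
        have : (9 : ℤ) * (r * s') = 9 * (p * q) := by rw [← hA, hs']; ring
        linarith)
      (by rw [hB, hs']; ring)
    exact ⟨γ, β, hS, hβ.trans hpe, hγ.trans hqe⟩
  · have hc : IsCoprime ((3 : ℤ) ^ 2) s :=
      ((Int.prime_three.irreducible.coprime_iff_not_dvd).mpr h3).pow_left
    obtain ⟨r', hr'⟩ := hc.dvd_of_dvd_mul_right h9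
    obtain ⟨γ, β, hS, hβ, hγ⟩ := key_L (r := s) (s := r') hp hq
      (by
        have : (9 : ℤ) * (s * r') = 9 * (p * q) := by rw [← hA, hr']; ring
        linarith)
      (by rw [hB, hr']; ring)
    exact ⟨γ, β, hS, hβ.trans hpe, hγ.trans hqe⟩

lemma sq_emod_eight (x : ℤ) : (x % 2 = 0 ∧ x ^ 2 % 4 = 0) ∨ (x % 2 = 1 ∧ x ^ 2 % 8 = 1) := by
  have : x % 8 = 0 ∨ x % 8 = 1 ∨ x % 8 = 2 ∨ x % 8 = 3 ∨ x % 8 = 4 ∨ x % 8 = 5 ∨ x % 8 = 6 ∨
      x % 8 = 7 := by omega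
  have h4 : x ^ 2 % 4 = (x ^ 2 % 8) % 4 := by omega
  rcases this with h | h | h | h | h | h | h | h
  all_goals
    have h8 : x ^ 2 % 8 = ((x % 8) * (x % 8)) % 8 := by rw [pow_two, Int.mul_emod]
    rw [h] at h8
    norm_num at h8
    omega

lemma classify_aux (M e a0 b0 A B : ℤ) (g : ℕ)
    (hg : g = 1 ∨ g = 2 ∨ g = 4 ∨ g = 5 ∨ g = 8 ∨ g = 10 ∨ g = 16 ∨ g = 20 ∨ g = 40 ∨ g = 80)
    (hA : A = g * a0 ^ 2) (hB : B = g * b0 ^ 2)
    (hAB : (A = M ^ 2 - e ^ 2 ∧ B = M ^ 2 - 81 * e ^ 2) ∨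
      (A = e ^ 2 - M ^ 2 ∧ B = 81 * e ^ 2 - M ^ 2))
    (hpar : ¬ (M % 2 = 0 ∧ e % 2 = 0)) (hpar' : ¬ (a0 % 2 = 0 ∧ b0 % 2 = 0)) :
    ∃ u v : ℤ, (A = u ^ 2 ∧ B = v ^ 2) ∨ (A = 5 * u ^ 2 ∧ B = 5 * v ^ 2) := by
  have hM := sq_emod_eight M
  have he := sq_emod_eight e
  have ha := sq_emod_eight a0
  have hb := sq_emod_eight b0
  rcases hg with rfl | rfl | rfl | rfl | rfl | rfl | rfl | rfl | rfl | rfl
  · exact ⟨a0, b0, Or.inl ⟨by rw [hA]; push_cast; ring, by rw [hB]; push_cast; ring⟩⟩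
  · exfalso; push_cast at hA hB; omega
  · exfalso; push_cast at hA hB; omega
  · exact ⟨a0, b0, Or.inr ⟨by rw [hA]; push_cast; ring, by rw [hB]; push_cast; ring⟩⟩
  · exfalso; push_cast at hA hB; omega
  · exfalso; push_cast at hA hB; omega
  · exact ⟨4 * a0, 4 * b0, Or.inl ⟨by rw [hA]; push_cast; ring, by rw [hB]; push_cast; ring⟩⟩
  · exfalso; push_cast at hA hB; omega
  · exfalso; push_cast at hA hB; omega
  · exact ⟨4 * a0, 4 * b0, Or.inr ⟨by rw [hA]; push_cast; ring, by rw [hB]; push_cast; ring⟩⟩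

lemma not_both_even {x y : ℤ} (h : Int.gcd x y = 1) : ¬ (x % 2 = 0 ∧ y % 2 = 0) := by
  rintro ⟨h1, h2⟩
  have h3 : (2 : ℤ) ∣ (Int.gcd x y : ℤ) :=
    Int.dvd_coe_gcd (Int.dvd_of_emod_eq_zero h1) (Int.dvd_of_emod_eq_zero h2)
  rw [h] at h3
  norm_num at h3

lemma classify {M e : ℤ} (hcop : IsCoprime M e) (hS : Sol M e) :
    ∃ u v : ℤ, (M ^ 2 - e ^ 2 = u ^ 2 ∧ M ^ 2 - 81 * e ^ 2 = v ^ 2) ∨
      (e ^ 2 - M ^ 2 = u ^ 2 ∧ 81 * e ^ 2 - M ^ 2 = v ^ 2) ∨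
      (M ^ 2 - e ^ 2 = 5 * u ^ 2 ∧ M ^ 2 - 81 * e ^ 2 = 5 * v ^ 2) ∨
      (e ^ 2 - M ^ 2 = 5 * u ^ 2 ∧ 81 * e ^ 2 - M ^ 2 = 5 * v ^ 2) := by
  obtain ⟨hM, he, N, hN, hEq⟩ := hS
  obtain ⟨a, ha⟩ : ∃ a, a = M ^ 2 - e ^ 2 := ⟨_, rfl⟩
  obtain ⟨b, hb⟩ : ∃ b, b = M ^ 2 - 81 * e ^ 2 := ⟨_, rfl⟩
  rw [← ha, ← hb] at hEq
  have hN2 : N ^ 2 ≠ 0 := pow_ne_zero 2 hN
  have ha0 : a ≠ 0 := by rintro rfl; rw [zero_mul] at hEq; exact hN2 hEq.symm
  have hg : 0 < Int.gcd a b := Int.gcd_pos_of_ne_zero_left _ ha0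
  obtain ⟨a', b', hab', haa', hbb'⟩ := Int.exists_gcd_one hg
  have hg80 : (Int.gcd a b : ℤ) ∣ 80 := by
    have h1 : (Int.gcd a b : ℤ) ∣ 80 * e ^ 2 := by
      have : 80 * e ^ 2 = a - b := by rw [ha, hb]; ring
      rw [this]; exact dvd_sub (Int.gcd_dvd_left ..) (Int.gcd_dvd_right ..)
    have h2 : (Int.gcd a b : ℤ) ∣ 80 * M ^ 2 := by
      have : 80 * M ^ 2 = 81 * a - b := by rw [ha, hb]; ring
      rw [this]
      exact dvd_sub (Dvd.dvd.mul_left (Int.gcd_dvd_left ..) _) (Int.gcd_dvd_right ..)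
    obtain ⟨x, y, hxy⟩ := (hcop.pow (m := 2) (n := 2))
    have : (80 : ℤ) = x * (80 * M ^ 2) + y * (80 * e ^ 2) := by linear_combination -80 * hxy
    rw [this]; exact dvd_add (Dvd.dvd.mul_left h2 _) (Dvd.dvd.mul_left h1 _)
  have hgN : Int.gcd a b ∣ 80 := by exact_mod_cast hg80
  obtain ⟨g, hgdef⟩ : ∃ g : ℕ, g = Int.gcd a b := ⟨_, rfl⟩
  rw [← hgdef] at hg hgN haa' hbb'
  have hgmem : g ∈ Nat.divisors 80 := Nat.mem_divisors.mpr ⟨hgN, by norm_num⟩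
  have h80 : Nat.divisors 80 = {1, 2, 4, 5, 8, 10, 16, 20, 40, 80} := by decide
  rw [h80] at hgmem
  simp only [Finset.mem_insert, Finset.mem_singleton] at hgmem
  have hgz : (g : ℤ) ≠ 0 := by positivity
  -- `a' * b'` is a square
  have hdv : (g : ℤ) ^ 2 ∣ N ^ 2 := ⟨a' * b', by rw [← hEq, haa', hbb']; ring⟩
  obtain ⟨N', hN'⟩ := (Int.pow_dvd_pow_iff two_ne_zero).mp hdv
  have hsq : a' * b' = N' ^ 2 := by
    have : (g : ℤ) ^ 2 * (a' * b') = (g : ℤ) ^ 2 * N' ^ 2 := by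
      calc (g : ℤ) ^ 2 * (a' * b') = a * b := by rw [haa', hbb']; ring
        _ = N ^ 2 := hEq
        _ = _ := by rw [hN']; ring
    exact mul_left_cancel₀ (pow_ne_zero 2 hgz) this
  have hN'0 : N' ≠ 0 := by rintro rfl; exact hN (by rw [hN']; ring)
  have hpos : 0 < a' * b' := by rw [hsq]; positivity
  obtain ⟨a0, ha0'⟩ := Int.sq_of_gcd_eq_one hab' hsq
  obtain ⟨b0, hb0'⟩ := Int.sq_of_gcd_eq_one (by rwa [Int.gcd_comm]) (by rwa [mul_comm] : b' * a' = N' ^ 2)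
  have hpar : ¬ (M % 2 = 0 ∧ e % 2 = 0) := not_both_even (Int.isCoprime_iff_gcd_eq_one.mp hcop)
  have hpar0 : ¬ (a' % 2 = 0 ∧ b' % 2 = 0) := not_both_even hab'
  have hA0 := sq_emod_eight a0
  have hB0 := sq_emod_eight b0
  have hpar' : ¬ (a0 % 2 = 0 ∧ b0 % 2 = 0) := by
    rintro ⟨h1, h2⟩
    apply hpar0
    rcases ha0' with h | h <;> rcases hb0' with h' | h' <;> omega
  rcases ha0' with h | h <;> rcases hb0' with h' | h'
  · obtain ⟨u, v, huv⟩ := classify_aux M e a0 b0 a b g hgmem (by rw [haa', h]; ring)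
      (by rw [hbb', h']; ring) (Or.inl ⟨ha, hb⟩) hpar hpar'
    rw [ha, hb] at huv
    rcases huv with huv | huv
    · exact ⟨u, v, Or.inl huv⟩
    · exact ⟨u, v, Or.inr (Or.inr (Or.inl huv))⟩
  · exfalso
    rw [h, h'] at hpos
    nlinarith [sq_nonneg (a0 * b0)]
  · exfalso
    rw [h, h'] at hpos
    nlinarith [sq_nonneg (a0 * b0)]
  · obtain ⟨u, v, huv⟩ := classify_aux M e a0 b0 (-a) (-b) g hgmem (by rw [haa', h]; ring)
      (by rw [hbb', h']; ring) (Or.inr ⟨by rw [ha]; ring, by rw [hb]; ring⟩) hpar hpar'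
    rw [ha, hb] at huv
    rcases huv with huv | huv
    · exact ⟨u, v, Or.inr (Or.inl ⟨by linarith [huv.1], by linarith [huv.2]⟩)⟩
    · exact ⟨u, v, Or.inr (Or.inr (Or.inr ⟨by linarith [huv.1], by linarith [huv.2]⟩))⟩

lemma sol_coprime {M e : ℤ} (hS : Sol M e) :
    ∃ M' e' : ℤ, IsCoprime M' e' ∧ Sol M' e' ∧ M'.natAbs ≤ M.natAbs ∧ e'.natAbs ≤ e.natAbs := by
  obtain ⟨hM, he, N, hN, hEq⟩ := hS
  have hg : 0 < Int.gcd M e := Int.gcd_pos_of_ne_zero_left _ hM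
  obtain ⟨M', e', hcop, hM', he'⟩ := Int.exists_gcd_one hg
  obtain ⟨g, hgdef⟩ : ∃ g : ℤ, g = (Int.gcd M e : ℤ) := ⟨_, rfl⟩
  rw [← hgdef] at hM' he'
  have hgz : g ≠ 0 := by rw [hgdef]; positivity
  have hdv : (g ^ 2) ^ 2 ∣ N ^ 2 :=
    ⟨(M' ^ 2 - e' ^ 2) * (M' ^ 2 - 81 * e' ^ 2), by rw [← hEq, hM', he']; ring⟩
  obtain ⟨N', hN'⟩ := (Int.pow_dvd_pow_iff two_ne_zero).mp hdv
  have hM'0 : M' ≠ 0 := by rintro rfl; exact hM (by rw [hM']; ring)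
  have he'0 : e' ≠ 0 := by rintro rfl; exact he (by rw [he']; ring)
  refine ⟨M', e', Int.isCoprime_iff_gcd_eq_one.mpr hcop, ⟨hM'0, he'0, N', ?_, ?_⟩, ?_, ?_⟩
  · rintro rfl; exact hN (by rw [hN']; ring)
  · have : (g ^ 2) ^ 2 * ((M' ^ 2 - e' ^ 2) * (M' ^ 2 - 81 * e' ^ 2)) = (g ^ 2) ^ 2 * N' ^ 2 := by
      calc _ = (M ^ 2 - e ^ 2) * (M ^ 2 - 81 * e ^ 2) := by rw [hM', he']; ring
        _ = N ^ 2 := hEq
        _ = _ := by rw [hN']; ring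
    exact mul_left_cancel₀ (pow_ne_zero 2 (pow_ne_zero 2 hgz)) this
  · exact Nat.le_of_dvd (Int.natAbs_pos.mpr hM) (Int.natAbs_dvd_natAbs.mpr ⟨g, hM'⟩)
  · exact Nat.le_of_dvd (Int.natAbs_pos.mpr he) (Int.natAbs_dvd_natAbs.mpr ⟨g, he'⟩)

lemma natAbs_le_of_dvd' {x y : ℤ} (hy : y ≠ 0) (h : x ∣ y) : x.natAbs ≤ y.natAbs :=
  Nat.le_of_dvd (Int.natAbs_pos.mpr hy) (Int.natAbs_dvd_natAbs.mpr h)

lemma descent_step {M e : ℤ} (hS : Sol M e) :
    ∃ γ β : ℤ, Sol γ β ∧ γ.natAbs < max M.natAbs e.natAbs ∧ β.natAbs < max M.natAbs e.natAbs := by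
  obtain ⟨M', e', hcop, hS', hMM, hee⟩ := sol_coprime hS
  obtain ⟨u, v, hc⟩ := classify hcop hS'
  obtain ⟨hM, he, N, hN, hEq⟩ := hS'
  have hN2 : N ^ 2 ≠ 0 := pow_ne_zero 2 hN
  have ha0 : M' ^ 2 - e' ^ 2 ≠ 0 := by intro h; rw [h, zero_mul] at hEq; exact hN2 hEq.symm
  have hb0 : M' ^ 2 - 81 * e' ^ 2 ≠ 0 := by intro h; rw [h, mul_zero] at hEq; exact hN2 hEq.symm
  have hM2 : 0 < M' ^ 2 := by positivity
  have he2 : 0 < e' ^ 2 := by positivity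
  -- it suffices to find `E ≠ 0` with `γ, β ∣ E` and `|E| < max`
  suffices H : ∃ E : ℤ, E ≠ 0 ∧ E.natAbs < max M.natAbs e.natAbs ∧
      ∃ γ β : ℤ, Sol γ β ∧ β ∣ E ∧ γ ∣ E by
    obtain ⟨E, hE0, hE, γ, β, hSol, hβ, hγ⟩ := H
    exact ⟨γ, β, hSol, lt_of_le_of_lt (natAbs_le_of_dvd' hE0 hγ) hE,
      lt_of_le_of_lt (natAbs_le_of_dvd' hE0 hβ) hE⟩
  rcases hc with ⟨h1, h2⟩ | ⟨h1, h2⟩ | ⟨h1, h2⟩ | ⟨h1, h2⟩
  · -- class I
    refine ⟨e', he, ?_, halving he h1 h2⟩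
    have hu : 0 < u ^ 2 := by
      rcases (sq_nonneg u).lt_or_eq with h | h
      · exact h
      · exact absurd (by rw [h1, ← h]) ha0
    have : e'.natAbs < M'.natAbs := Int.natAbs_lt_iff_sq_lt.mpr (by linarith)
    exact lt_of_lt_of_le this (le_trans hMM (le_max_left _ _))
  · -- class II
    refine ⟨M', hM, ?_, halving (M := 9 * e') (e := M') (u := v) (v := 9 * u) hM
      (by linear_combination h2) (by linear_combination 81 * h1)⟩
    have hu : 0 < u ^ 2 := by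
      rcases (sq_nonneg u).lt_or_eq with h | h
      · exact h
      · exact absurd (by linarith) ha0
    have : M'.natAbs < e'.natAbs := Int.natAbs_lt_iff_sq_lt.mpr (by linarith)
    exact lt_of_lt_of_le this (le_trans hee (le_max_right _ _))
  · -- class III
    have hv0 : v ≠ 0 := by rintro rfl; exact hb0 (by rw [h2]; ring)
    refine ⟨v, hv0, ?_, halving (M := 9 * u) (e := v) (u := 4 * M') (v := 36 * e') hv0
      (by ring_nf; ring_nf at h1 h2; linarith) (by ring_nf; ring_nf at h1 h2; linarith)⟩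
    have hv : 0 < v ^ 2 := by positivity
    have : v.natAbs < M'.natAbs := Int.natAbs_lt_iff_sq_lt.mpr (by nlinarith)
    exact lt_of_lt_of_le this (le_trans hMM (le_max_left _ _))
  · -- class IV
    have hu0 : u ≠ 0 := by rintro rfl; exact ha0 (by linarith)
    refine ⟨u, hu0, ?_, halving (M := v) (e := u) (u := 4 * e') (v := 4 * M') hu0
      (by ring_nf; ring_nf at h1 h2; linarith) (by ring_nf; ring_nf at h1 h2; linarith)⟩
    have hu : 0 < u ^ 2 := by positivity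
    have : u.natAbs < e'.natAbs := Int.natAbs_lt_iff_sq_lt.mpr (by nlinarith)
    exact lt_of_lt_of_le this (le_trans hee (le_max_right _ _))

theorem no_sol : ∀ (n : ℕ) (M e : ℤ), M.natAbs ≤ n → e.natAbs ≤ n → ¬ Sol M e := by
  intro n
  induction n with
  | zero =>
    intro M e hM _ hS
    exact hS.1 (Int.natAbs_eq_zero.mp (Nat.le_zero.mp hM))
  | succ n ih =>
    intro M e hM he hS
    obtain ⟨γ, β, hS', hγ, hβ⟩ := descent_step hS
    have hmax : max M.natAbs e.natAbs ≤ n + 1 := max_le hM he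
    exact ih γ β (by omega) (by omega) hS'

theorem not_sol (M e : ℤ) : ¬ Sol M e :=
  no_sol (max M.natAbs e.natAbs) M e (le_max_left _ _) (le_max_right _ _)

/-- The only rational solutions of `(r² - 1)(r² - 81) = t²` have `r = 0` or `t = 0`. -/
theorem quartic_15 (r t : ℚ) (h : (r ^ 2 - 1) * (r ^ 2 - 81) = t ^ 2) : r = 0 ∨ t = 0 := by
  by_contra hcon
  rw [not_or] at hcon
  obtain ⟨hr, ht⟩ := hcon
  obtain ⟨M, e, he, hr'⟩ : ∃ M e : ℤ, e ≠ 0 ∧ r = (M : ℚ) / (e : ℚ) :=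
    ⟨r.num, r.den, by exact_mod_cast r.den_ne_zero, by simpa using (Rat.num_div_den r).symm⟩
  subst hr'
  have heq : (e : ℚ) ≠ 0 := by exact_mod_cast he
  have hM : M ≠ 0 := by
    rintro rfl
    exact hr (by simp)
  have hmain : (((M ^ 2 - e ^ 2) * (M ^ 2 - 81 * e ^ 2) : ℤ) : ℚ) = (t * (e : ℚ) ^ 2) ^ 2 := by
    have : (t * (e : ℚ) ^ 2) ^ 2 = t ^ 2 * (e : ℚ) ^ 4 := by ring
    rw [this, ← h]
    push_cast
    field_simp
  have hsq : IsSquare (((M ^ 2 - e ^ 2) * (M ^ 2 - 81 * e ^ 2) : ℤ) : ℚ) :=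
    ⟨t * (e : ℚ) ^ 2, by rw [hmain]; ring⟩
  rw [Rat.isSquare_intCast_iff] at hsq
  obtain ⟨N, hN⟩ := hsq
  refine not_sol M e ⟨hM, he, N, ?_, by rw [hN]; ring⟩
  rintro rfl
  rw [hN] at hmain
  have h1 : (t * (e : ℚ) ^ 2) ^ 2 = 0 := by rw [← hmain]; simp
  have h2 : t * (e : ℚ) ^ 2 = 0 := pow_eq_zero_iff two_ne_zero |>.mp h1
  rcases mul_eq_zero.mp h2 with h3 | h3
  · exact ht h3
  · exact heq (pow_eq_zero_iff two_ne_zero |>.mp h3)

/-- The rational points of `X₀(15) : y² = x (x + 9) (x - 16)`. -/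
theorem rat_points_15a1 (x y : ℚ) (h : y ^ 2 = x * (x + 9) * (x - 16)) :
    x = 0 ∨ x = -9 ∨ x = 16 ∨ x = 36 ∨ x = -4 := by
  by_cases hX : x - 16 = 0
  · right; right; left; linarith
  have key := quartic_15 (y / (x - 16)) (((x - 16) ^ 2 - 400) / (x - 16)) (by
    field_simp
    linear_combination (y ^ 2 + x * (x + 9) * (x - 16) - 82 * (x - 16) ^ 2) * h)
  rcases key with h0 | h0
  · have hy : y = 0 := by
      rcases div_eq_zero_iff.mp h0 with h1 | h1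
      · exact h1
      · exact absurd h1 hX
    rw [hy] at h
    have h2 : x * (x + 9) * (x - 16) = 0 := by linarith
    rcases mul_eq_zero.mp h2 with h3 | h3
    · rcases mul_eq_zero.mp h3 with h4 | h4
      · left; exact h4
      · right; left; linarith
    · exact absurd h3 hX
  · have h1 : (x - 16) ^ 2 - 400 = 0 := by
      rcases div_eq_zero_iff.mp h0 with h1 | h1
      · exact h1
      · exact absurd h1 hX
    have h2 : (x - 36) * (x + 4) = 0 := by linear_combination h1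
    rcases mul_eq_zero.mp h2 with h3 | h3
    · right; right; right; left; linarith
    · right; right; right; right; linarith

end Fermat.Agent.S51
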