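import Mathlib
import Fermat.Agent.S51.Descent

set_option autoImplicit false

namespace Fermat.Agent.S51

/-- The key identity on `X₀(15)`. -/
theorem key_identity (a b r x : ℚ)
    (hΨ : 3*x^4 + a*x^3 + 3*b*x^2 + 3*a*r*x + 5*r^2 + b*r = 0)
    (hR : b^2 + 4*b*r + 20*r^2 - a^2*r = 0) :
    r*(9*(x^2-r)+4*r)*(4*x^3+a*x^2+2*b*x+a*r)^4
      + 10*r*(x^2-r)^3*(b-20*r)*(4*x^3+a*x^2+2*b*x+a*r)^2
      + (x^2-r)^5*(4*r-(x^2-r))*(b-20*r)^2 = 0 := by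
  linear_combination ((1/19683)*a^10*r - (1/6561)*a^9*r*x - (1/19683)*a^8*b^2 - (67/19683)*a^8*b*r - (173/19683)*a^8*r^2 + (1/2187)*a^8*r*x^2 + (1/6561)*a^7*b^2*x + (58/6561)*a^7*b*r*x + (200/6561)*a^7*r^2*x - (1/729)*a^7*r*x^3 + (7/2187)*a^6*b^3 + (20/243)*a^6*b^2*r - (1/2187)*a^6*b^2*x^2 + (1462/2187)*a^6*b*r^2 - (49/2187)*a^6*b*r*x^2 - (2696/2187)*a^6*r^3 - (227/2187)*a^6*r^2*x^2 + (1/243)*a^6*r*x^4 - (2/243)*a^5*b^3*x - (134/729)*a^5*b^2*r*x + (1/729)*a^5*b^2*x^3 - (1358/729)*a^5*b*r^2*x + (40/729)*a^5*b*r*x^3 + (1919/729)*a^5*r^3*x + (254/729)*a^5*r^2*x^3 - (1/81)*a^5*r*x^5 - (5/81)*a^4*b^4 - (868/729)*a^4*b^3*r + (5/243)*a^4*b^3*x^2 - (2833/243)*a^4*b^2*r^2 + (97/243)*a^4*b^2*r*x^2 - (1/243)*a^4*b^2*x^4 + (11645/729)*a^4*b*r^3 + (400/81)*a^4*b*r^2*x^2 - (31/243)*a^4*b*r*x^4 + (29447/729)*a^4*r^4 - (1061/243)*a^4*r^3*x^2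 - (281/243)*a^4*r^2*x^4 + (1/27)*a^4*r*x^6 + (10/81)*a^3*b^4*x + (614/243)*a^3*b^3*r*x - (4/81)*a^3*b^3*x^3 + (1852/81)*a^3*b^2*r^2*x - (23/27)*a^3*b^2*r*x^3 + (1/81)*a^3*b^2*x^5 + (866/243)*a^3*b*r^3*x - (988/81)*a^3*b*r^2*x^3 + (22/81)*a^3*b*r*x^5 - (43720/243)*a^3*r^4*x + (1904/81)*a^3*r^3*x^3 + (632/81)*a^3*r^2*x^5 + (80/9)*a^3*r*x^7 + (10/27)*a^2*b^5 + (34/3)*a^2*b^4*r - (2/9)*a^2*b^4*x^2 + (1258/27)*a^2*b^3*r^2 - (145/27)*a^2*b^3*r*x^2 + (1/9)*a^2*b^3*x^4 + (1442/9)*a^2*b^2*r^3 - (341/9)*a^2*b^2*r^2*x^2 + (50/27)*a^2*b^2*r*x^4 - (1/27)*a^2*b^2*x^6 - (13294/27)*a^2*b*r^4 - (3634/27)*a^2*b*r^3*x^2 + (1262/27)*a^2*b*r^2*x^4 + (1202/27)*a^2*b*r*x^6 - (2840/9)*a^2*r^5 - (1000/27)*a^2*r^4*x^2 + (3976/27)*a^2*r^3*x^4 - (632/27)*a^2*r^2*x^6 + (352/3)*a^2*r*x^8 - (4/9)*a*b^5*x - 19*a*b^4*r*x + (1/3)*a*b^4*x^3 - (1682/27)*a*b^3*r^2*x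 + (304/27)*a*b^3*r*x^3 - (2/9)*a*b^3*x^5 - (1721/9)*a*b^2*r^3*x + (103/9)*a*b^2*r^2*x^3 + (689/9)*a*b^2*r*x^5 + (1/9)*a*b^2*x^7 + (20920/27)*a*b*r^4*x - (248/27)*a*b*r^3*x^3 - (344/3)*a*b*r^2*x^5 + (3496/9)*a*b*r*x^7 + (62800/27)*a*r^5*x - (22640/27)*a*r^4*x^3 + (2960/9)*a*r^3*x^5 - (3760/9)*a*r^2*x^7 + 512*a*r*x^9 - (1/3)*b^6 - (73/3)*b^5*r + (1/3)*b^5*x^2 - (4555/27)*b^4*r^2 + (220/9)*b^4*r*x^2 - (1/3)*b^4*x^4 - (20009/27)*b^3*r^3 + (1213/9)*b^3*r^2*x^2 + (211/9)*b^3*r*x^4 + (1/3)*b^3*x^6 - (36355/27)*b^2*r^4 + (8218/9)*b^2*r^3*x^2 - (1540/3)*b^2*r^2*x^4 + 374*b^2*r*x^6 - (1/3)*b^2*x^8 + (1000/3)*b*r^5 + (12800/9)*b*r^4*x^2 - (2480/9)*b*r^3*x^4 - (2528/3)*b*r^2*x^6 + (2504/3)*b*r*x^8 + (34000/27)*r^6 + (32800/9)*r^5*x^2 - (46400/9)*r^4*x^4 + (9760/3)*r^3*x^6 - (4880/3)*r^2*x^8 + 768*r*x^10) * hΨ + ((1/6561)*a^9*r*x + (1/19683)*a^9*x^3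 + (1/19683)*a^8*b*r + (1/6561)*a^8*b*x^2 + (5/19683)*a^8*r^2 - (1/2187)*a^8*r*x^2 - (64/6561)*a^7*b*r*x - (8/2187)*a^7*b*x^3 - (158/6561)*a^7*r^2*x - (14/2187)*a^7*r*x^3 - (7/2187)*a^6*b^2*r - (7/729)*a^6*b^2*x^2 - (52/2187)*a^6*b*r^2 + (4/2187)*a^6*b*r*x^2 - (85/2187)*a^6*r^3 + (185/2187)*a^6*r^2*x^2 + (47/243)*a^5*b^2*r*x + (7/81)*a^5*b^2*x^3 + (1304/729)*a^5*b*r^2*x + (16/27)*a^5*b*r*x^3 - (2936/729)*a^5*r^3*x - (136/81)*a^5*r^2*x^3 + (5/81)*a^4*b^3*r + (5/27)*a^4*b^3*x^2 + (643/729)*a^4*b^2*r^2 + (323/243)*a^4*b^2*r*x^2 + (1078/729)*a^4*b*r^3 - (2218/243)*a^4*b*r^2*x^2 - (5060/729)*a^4*r^4 + (2204/243)*a^4*r^3*x^2 - (100/81)*a^3*b^3*r*x - (20/27)*a^3*b^3*x^3 - (7475/243)*a^3*b^2*r^2*x - (1099/81)*a^3*b^2*r*x^3 + (14800/243)*a^3*b*r^3*x + (400/9)*a^3*b*r^2*x^3 + (13072/243)*a^3*r^4*x - (368/81)*a^3*r^3*x^3 - (10/27)*a^2*b^4*r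 - (10/9)*a^2*b^4*x^2 - (307/27)*a^2*b^3*r^2 - 27*a^2*b^3*r*x^2 - (694/27)*a^2*b^2*r^3 + (3310/27)*a^2*b^2*r^2*x^2 + (3296/27)*a^2*b*r^4 + (160/27)*a^2*b*r^3*x^2 + (1840/27)*a^2*r^5 - (9968/27)*a^2*r^4*x^2 + (13/9)*a*b^4*r*x + (5/3)*a*b^4*x^3 + (796/9)*a*b^3*r^2*x + (220/3)*a*b^3*r*x^3 + (7580/27)*a*b^2*r^3*x - (172/3)*a*b^2*r^2*x^3 - (4480/27)*a*b*r^4*x - (1664/3)*a*b*r^3*x^3 - (20800/27)*a*r^5*x - 320*a*r^4*x^3 + (1/3)*b^5*r + b^5*x^2 + (74/3)*b^4*r^2 + (206/3)*b^4*r*x^2 + (4996/27)*b^3*r^3 + (556/3)*b^3*r^2*x^2 + (3160/9)*b^2*r^4 - (1336/9)*b^2*r^3*x^2 - (160/3)*b*r^5 - (6304/9)*b*r^4*x^2 - (11200/27)*r^6 - (3520/9)*r^5*x^2) * hR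

theorem exists_point_15a1 (a b r x : ℚ)
    (hΨ : 3*x^4 + a*x^3 + 3*b*x^2 + 3*a*r*x + 5*r^2 + b*r = 0)
    (hR : b^2 + 4*b*r + 20*r^2 - a^2*r = 0)
    (hr : r ≠ 0) (hU : x^2 - r ≠ 0) (hD : b - 20*r ≠ 0) :
    ∃ y : ℚ, y^2 = (9*(x^2-r)/r) * (9*(x^2-r)/r + 9) * (9*(x^2-r)/r - 16) := by
  have K := key_identity a b r x hΨ hR
  set U := x^2 - r with hUdef
  set Fx := 4*x^3+a*x^2+2*b*x+a*r with hFx
  set D := b - 20*r with hDdef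
  set v : ℚ := 9*Fx^2/(2*U^2*D) with hv
  set X : ℚ := -9*U/(4*r) with hX
  have hquad : (X-1)*v^2 + 5*X*v + X*(X+9) = 0 := by
    have : (X-1)*v^2 + 5*X*v + X*(X+9) =
        -81 * (r*(9*U+4*r)*Fx^4 + 10*r*U^3*D*Fx^2 + U^5*(4*r-U)*D^2) / (16*r^2*U^4*D^2) := by
      rw [hv, hX]
      field_simp
      ring
    rw [this, K]; simp
  refine ⟨8*v*(X-1) + 20*X, ?_⟩
  have hx : 9*U/r = -4*X := by rw [hX]; field_simp
  rw [hx]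
  linear_combination 64*(X-1)*hquad

theorem b_cases (a b r x : ℚ)
    (hΨ : 3*x^4 + a*x^3 + 3*b*x^2 + 3*a*r*x + 5*r^2 + b*r = 0)
    (hR : b^2 + 4*b*r + 20*r^2 - a^2*r = 0)
    (hr : r ≠ 0) (hU : x^2 - r ≠ 0) (hD : b - 20*r ≠ 0) :
    b = -5*r ∨ b = 0 ∨ 4*b = 55*r ∨ b = -60*r := by
  obtain ⟨y, hy⟩ := exists_point_15a1 a b r x hΨ hR hr hU hD
  rcases rat_points_15a1 _ y hy with h | h | h | h | h
  · exfalso
    rw [div_eq_zero_iff] at h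
    rcases h with h | h
    · exact hU (by linarith)
    · exact hr h
  · -- x^2 = 0
    left
    have hx : x^2 - 0*r = 0 := by
      rw [div_eq_iff hr] at h; linarith
    have h1 : 3*a*x + (b + 5*r) = 0 := by
      apply mul_left_cancel₀ hr
      linear_combination hΨ - (a*x + 3*b + 3*x^2) * hx
    have h2 : (b + 5*r)^2 = 0 := by
      linear_combination ((b + 5*r) - 3*a*x) * h1 + 9*a^2 * hx
    have := pow_eq_zero_iff (two_ne_zero) |>.mp h2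
    linarith
  · -- x^2 = 25/9 r
    right; right; left
    have hx : x^2 - (25/9)*r = 0 := by
      rw [div_eq_iff hr] at h; linarith
    have h1 : (52/9)*a*x + ((28/3)*b + (760/27)*r) = 0 := by
      apply mul_left_cancel₀ hr
      linear_combination hΨ - (a*x + 3*b + (25/3)*r + 3*x^2) * hx
    have h2 : (4*b - 55*r)^2 = 0 := by
      linear_combination (-729/256) * ((((28/3)*b + (760/27)*r) - (52/9)*a*x) * h1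
        + (52/9)^2*a^2 * hx - (25/9)*(52/9)^2 * hR)
    have := pow_eq_zero_iff (two_ne_zero) |>.mp h2
    linarith
  · -- x^2 = 5 r
    right; left
    have hx : x^2 - 5*r = 0 := by
      rw [div_eq_iff hr] at h; linarith
    have h1 : 8*a*x + (16*b + 80*r) = 0 := by
      apply mul_left_cancel₀ hr
      linear_combination hΨ - (a*x + 3*b + 15*r + 3*x^2) * hx
    have h2 : b * (b - 20*r) = 0 := by
      linear_combination (-1/64) * (((16*b + 80*r) - 8*a*x) * h1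
        + 64*a^2 * hx - 5*64 * hR)
    rcases mul_eq_zero.mp h2 with h3 | h3
    · exact h3
    · exact absurd h3 hD
  · -- x^2 = 5/9 r
    right; right; right
    have hx : x^2 - (5/9)*r = 0 := by
      rw [div_eq_iff hr] at h; linarith
    have h1 : (32/9)*a*x + ((8/3)*b + (160/27)*r) = 0 := by
      apply mul_left_cancel₀ hr
      linear_combination hΨ - (a*x + 3*b + (5/3)*r + 3*x^2) * hx
    have h2 : (b + 60*r) * (b - 20*r) = 0 := by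
      linear_combination (729/64) * ((((8/3)*b + (160/27)*r) - (32/9)*a*x) * h1
        + (32/9)^2*a^2 * hx - (5/9)*(32/9)^2 * hR)
    rcases mul_eq_zero.mp h2 with h3 | h3
    · linarith
    · exact absurd h3 hD

theorem algebra_main (b2 b4 b6 b8 x0 m ρ : ℚ)
    (hrel : 4*b8 = b2*b6 - b4^2)
    (h3 : 3*x0^4 + b2*x0^3 + 3*b4*x0^2 + 3*b6*x0 + b8 = 0)
    (hR1 : 4*m^3 + b2*m^2 + 2*b4*m + b6 = (b2 + 12*m) * ρ)
    (hR2 : 5*ρ^2 + (b4 + b2*m + 6*m^2)*ρ - (3*m^4 + b2*m^3 + 3*b4*m^2 + 3*b6*m + b8) = 0)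
    (hρ : ρ ≠ 0) (hU : (x0 - m)^2 - ρ ≠ 0)
    (c4 Δ : ℚ) (hc4 : c4 = b2^2 - 24*b4)
    (hΔ : Δ = -b2^2*b8 - 8*b4^3 - 27*b6^2 + 9*b2*b4*b6) (hΔ0 : Δ ≠ 0) :
    -32*c4^3 = 121945*Δ ∨ -2*c4^3 = 25*Δ ∨ 32768*c4^3 = 46969655*Δ ∨
      8*c4^3 = -349938025*Δ := by
  set a := b2 + 12*m with ha
  set b := b4 + b2*m + 6*m^2 with hb
  set x := x0 - m with hx
  have hx0 : x0 = x + m := by rw [hx]; ring
  have hΨ : 3*x^4 + a*x^3 + 3*b*x^2 + 3*a*ρ*x + 5*ρ^2 + b*ρ = 0 := by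
    rw [hx0] at h3
    rw [ha, hb] at *
    linear_combination h3 - 3*x*hR1 + hR2
  have hR : b^2 + 4*b*ρ + 20*ρ^2 - a^2*ρ = 0 := by
    rw [ha, hb] at *
    linear_combination 4*hR2 + hrel + (b2 + 12*m)*hR1
  have hc4' : c4 * ρ = b^2 - 20*b*ρ + 20*ρ^2 := by
    have : c4 = a^2 - 24*b := by rw [hc4, ha, hb]; ring
    rw [this]; linear_combination -hR
  have hΔ' : Δ = 32*ρ^2*(b - 20*ρ) := by
    have h6 : 4*m^3 + b2*m^2 + 2*b4*m + b6 = a*ρ := hR1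
    have h8 : 3*m^4 + b2*m^3 + 3*b4*m^2 + 3*b6*m + b8 = 5*ρ^2 + b*ρ := by linear_combination -hR2
    have e1 : Δ = -a^2*(3*m^4 + b2*m^3 + 3*b4*m^2 + 3*b6*m + b8) - 8*b^3
        - 27*(4*m^3 + b2*m^2 + 2*b4*m + b6)^2 + 9*a*b*(4*m^3 + b2*m^2 + 2*b4*m + b6) := by
      rw [hΔ, ha, hb]
      linear_combination (6*b2*m + 36*m^2) * hrel
    rw [e1, h6, h8]
    linear_combination (-(8*b - 32*ρ)) * hR
  have hD : b - 20*ρ ≠ 0 := by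
    intro h; apply hΔ0; rw [hΔ', h]; ring
  rcases b_cases a b ρ x hΨ hR hρ hU hD with h | h | h | h
  · left
    have hc : c4 = 145*ρ := by
      apply mul_right_cancel₀ hρ; rw [hc4', h]; ring
    rw [hc, hΔ', h]; ring
  · right; left
    have hc : c4 = 20*ρ := by
      apply mul_right_cancel₀ hρ; rw [hc4', h]; ring
    rw [hc, hΔ', h]; ring
  · right; right; left
    have hb' : b = 55/4*ρ := by linarith
    have hc : c4 = -1055/16*ρ := by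
      apply mul_right_cancel₀ hρ; rw [hc4', hb']; ring
    rw [hc, hΔ', hb']; ring
  · right; right; right
    have hc : c4 = 4820*ρ := by
      apply mul_right_cancel₀ hρ; rw [hc4', h]; ring
    rw [hc, hΔ', h]; ring

theorem not_semistable_five (c4 Δ : ℤ) (hss : (5:ℤ) ∣ Δ → ¬ (5:ℤ) ∣ c4)
    (h : -32*c4^3 = 121945*Δ ∨ -2*c4^3 = 25*Δ ∨ 32768*c4^3 = 46969655*Δ ∨
      8*c4^3 = -349938025*Δ) : False := by
  have hp : Prime (5:ℤ) := by norm_num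
  have key : ∀ k n : ℤ, ¬ (5:ℤ) ∣ k → ¬ (5:ℤ) ∣ n → (k * c4^3 = 5 * n * Δ ∨ k * c4^3 = 25 * n * Δ) →
      False := by
    intro k n hk hn h
    have h1 : (5:ℤ) ∣ k * c4^3 := by
      rcases h with h | h
      · exact ⟨n * Δ, by rw [h]; ring⟩
      · exact ⟨5 * n * Δ, by rw [h]; ring⟩
    have h2 : (5:ℤ) ∣ c4 := by
      rcases hp.dvd_or_dvd h1 with h' | h'
      · exact absurd h' hk
      · exact hp.dvd_of_dvd_pow h'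
    have h3 : (5:ℤ) ∣ Δ := by
      obtain ⟨c, hc⟩ := h2
      have h4 : (5:ℤ) ∣ n * Δ := by
        rcases h with h | h
        · exact ⟨5 * k * c^3, by rw [hc] at h; linarith⟩
        · exact ⟨k * c^3, by rw [hc] at h; linarith⟩
      rcases hp.dvd_or_dvd h4 with h' | h'
      · exact absurd h' hn
      · exact h'
    exact hss h3 h2
  rcases h with h | h | h | h
  · exact key (-32) 24389 (by norm_num) (by norm_num) (Or.inl (by rw [h]; ring))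
  · exact key (-2) 1 (by norm_num) (by norm_num) (Or.inr (by rw [h]; ring))
  · exact key 32768 9393931 (by norm_num) (by norm_num) (Or.inl (by rw [h]; ring))
  · exact key 8 (-13997521) (by norm_num) (by norm_num) (Or.inr (by rw [h]; ring))

end Fermat.Agent.S51
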