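import Mathlib
import Fermat.Agent.S51.Galois

set_option autoImplicit false
set_option linter.unusedSectionVars false

namespace Fermat.Agent.S51

open WeierstrassCurve WeierstrassCurve.Affine WeierstrassCurve.Affine.Point Fermat.Agent.S05 Polynomial

local notation "Qb" => AlgebraicClosure ℚ

variable (E : Affine ℚ)

lemma fF_map (x : ℚ) : fF (E⁄Qb) (algebraMap ℚ Qb x) = algebraMap ℚ Qb (fF E x) := by
  change fF (E.map (algebraMap ℚ Qb)) _ = _
  simp only [fF, WeierstrassCurve.map_b₂, WeierstrassCurve.map_b₄, WeierstrassCurve.map_b₆,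
    map_add, map_mul, map_pow, map_ofNat]

lemma f3_map (x : ℚ) : f3 (E⁄Qb) (algebraMap ℚ Qb x) = algebraMap ℚ Qb (f3 E x) := by
  change f3 (E.map (algebraMap ℚ Qb)) _ = _
  simp only [f3, WeierstrassCurve.map_b₂, WeierstrassCurve.map_b₄, WeierstrassCurve.map_b₆,
    WeierstrassCurve.map_b₈, map_add, map_mul, map_pow, map_ofNat]

theorem relations (P₃ P₅ : (E⁄Qb).Point) (x₀ e₁ e₂ : ℚ) (hP3 : P₃ ≠ 0) (h3 : 3 • P₃ = 0)
    (hx0 : px P₃ = algebraMap ℚ Qb x₀) (hP5 : P₅ ≠ 0) (h5 : 5 • P₅ = 0)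
    (he1 : px P₅ + px (2 • P₅) = algebraMap ℚ Qb e₁)
    (he2 : px P₅ * px (2 • P₅) = algebraMap ℚ Qb e₂) :
    f3 E x₀ = 0 ∧ fF E (e₁/2) = (E.b₂ + 12*(e₁/2)) * (e₁^2/4 - e₂) ∧
    5*(e₁^2/4 - e₂)^2 + (E.b₄ + E.b₂*(e₁/2) + 6*(e₁/2)^2)*(e₁^2/4 - e₂) - f3 E (e₁/2) = 0 ∧
    e₁^2/4 - e₂ ≠ 0 ∧ (x₀ - e₁/2)^2 - (e₁^2/4 - e₂) ≠ 0 := by
  have hinj := (algebraMap ℚ Qb).injective
  -- basic facts on multiples of P₅
  have h2 : 2 • P₅ ≠ 0 := by
    intro h2; apply hP5
    have : 5 • P₅ = 2 • P₅ + 2 • P₅ + P₅ := by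
      simp only [succ_nsmul, zero_nsmul, zero_add, add_assoc]
    rw [h2, h5] at this; simpa using this.symm
  have h3' : 3 • P₅ ≠ 0 := by
    intro h3; apply h2
    have : 5 • P₅ = 3 • P₅ + 2 • P₅ := by simp only [succ_nsmul, zero_nsmul, zero_add, add_assoc]
    rw [h3, h5] at this; simpa using this.symm
  have h4 : 2 • (2 • P₅) = -P₅ := by
    rw [eq_neg_iff_add_eq_zero, ← h5]; simp only [succ_nsmul, zero_nsmul, zero_add, add_assoc]
  have h4ne : 2 • (2 • P₅) ≠ 0 := by rw [h4]; exact neg_ne_zero.mpr hP5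
  have hψ1 := ppsi_ne_zero_of_two_nsmul_ne hP5 h2
  have hψ2 := ppsi_ne_zero_of_two_nsmul_ne h2 h4ne
  have E1 := fF_mul_px_two hP5 hψ1
  have E2 := fF_mul_px_two h2 hψ2
  rw [h4, px_neg] at E2
  have hF1 := fF_ne_zero_of_ppsi_ne hP5 hψ1
  have hne : px (2 • P₅) ≠ px P₅ := by
    intro h
    have hsub := px_two_sub hP5 hψ1
    rw [h, sub_self, mul_zero] at hsub
    exact h3' ((three_nsmul_eq_zero_iff hP5).mpr (neg_eq_zero.mp hsub.symm))
  set x₁ := px P₅ with hx1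
  set x₂ := px (2 • P₅) with hx2
  have hm : algebraMap ℚ Qb (e₁/2) = (x₁ + x₂)/2 := by
    rw [map_div₀, ← he1, map_ofNat]
  have hρ : algebraMap ℚ Qb (e₁^2/4 - e₂) = ((x₁ - x₂)/2)^2 := by
    rw [map_sub, map_div₀, map_pow, ← he1, ← he2, map_ofNat]; ring
  have hb2 : (E⁄Qb).b₂ = algebraMap ℚ Qb E.b₂ := E.map_b₂ _
  have hb4 : (E⁄Qb).b₄ = algebraMap ℚ Qb E.b₄ := E.map_b₄ _
  have hd : x₁ - x₂ ≠ 0 := sub_ne_zero.mpr (Ne.symm hne)
  refine ⟨?_, ?_, ?_, ?_, ?_⟩
  · apply hinj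
    rw [← f3_map, ← hx0, _root_.map_zero]
    exact (three_nsmul_eq_zero_iff hP3).mp h3
  · apply hinj
    rw [← fF_map, map_mul, map_add, map_mul, hm, hρ, ← hb2, map_ofNat]
    apply mul_left_cancel₀ hd
    simp only [fF, fN] at E1 E2 ⊢
    linear_combination E1 - E2
  · apply hinj
    rw [map_sub, ← f3_map, map_add, map_mul, map_mul, map_pow, map_add, map_add, map_mul, map_mul,
      map_pow, hm, hρ, ← hb2, ← hb4, _root_.map_zero, map_ofNat, map_ofNat]
    simp only [fF, fN, f3] at E1 E2 ⊢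
    linear_combination (-1/2) * E1 - (1/2) * E2
  · intro h
    have := congrArg (algebraMap ℚ Qb) h
    rw [hρ, _root_.map_zero] at this
    have h' := pow_eq_zero_iff (two_ne_zero) |>.mp this
    exact hd (by linear_combination 2 * h')
  · intro h
    have := congrArg (algebraMap ℚ Qb) h
    rw [map_sub, map_pow, map_sub, hm, hρ, _root_.map_zero, ← hx0] at this
    have hprod : (px P₃ - x₁) * (px P₃ - x₂) = 0 := by linear_combination this
    rcases mul_eq_zero.mp hprod with h' | h'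
    · -- P₃ = ± P₅
      have hxx : px P₃ = px P₅ := sub_eq_zero.mp h'
      apply h3'
      rcases eq_or_eq_neg_of_px_eq hP3 hP5 hxx with h'' | h''
      · rw [← h'']; exact h3
      · have : P₅ = -P₃ := by rw [h'']; simp
        rw [this, neg_nsmul, h3, _root_.neg_zero]
    · have hxx : px P₃ = px (2 • P₅) := sub_eq_zero.mp h'
      have h6 : 3 • (2 • P₅) = 0 := by
        rcases eq_or_eq_neg_of_px_eq hP3 h2 hxx with h'' | h''
        · rw [← h'']; exact h3
        · have : 2 • P₅ = -P₃ := by rw [h'']; simp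
          rw [this, neg_nsmul, h3, _root_.neg_zero]
      apply hP5
      have : 3 • (2 • P₅) = 5 • P₅ + P₅ := by
        simp only [succ_nsmul, zero_nsmul, zero_add, add_assoc]
      rw [h6, h5, zero_add] at this
      exact this.symm

end Fermat.Agent.S51
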